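import Mathlib
import Fermat.Agent.ESCore.GalConj
import Fermat.Agent.ESCore.Root
import Fermat.Agent.ESCore.FormalParam
import Fermat.Agent.ESCore.HeckeQ

set_option autoImplicit false

/-!
# `m`-th roots of forms without character are forms with character
-/

open UpperHalfPlane hiding I J
open Complex Function Filter Topology ModularForm Matrix Matrix.SpecialLinearGroup
open Fermat.Agent.Eis16 Fermat.Agent.ES Fermat.Agent.ModFun Fermat.Agent.ESCore
open Fermat.Agent.ESCore.Gal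
open scoped MatrixGroups Manifold ModularForm

noncomputable section

namespace Fermat.Agent.JTors

local notation "Δ" => ModularForm.discriminant

variable {G : Subgroup SL(2, ℤ)}

theorem exists_root_form {m : ℕ} (hm : 0 < m) (hT : ModularGroup.T ∈ G) {n : ℕ} {f' : ℍ → ℂ}
    (hf' : f' ∈ mform (1 : G →* ℂˣ) (12 * (n * m : ℕ))) (hf'0 : f' ≠ 0)
    (hord : ∀ τ : ℍ, ∃ j : ℕ, ordH τ (divD hf'.1 (n * m) : ℍ → ℂ) = ((m * j : ℕ) : ℕ∞))
    {R : PowerSeries ℂ} (hR : HasQ 1 f' (R ^ m)) :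
    ∃ χ ∈ XGen G m, ∃ F ∈ mform χ (12 * n), F ≠ 0 ∧ F ^ m = f' ∧ HasQ 1 F R := by
  have hh0 : (divD hf'.1 (n * m) : ℍ → ℂ) ≠ 0 := by
    intro h
    apply hf'0
    ext τ
    have h1 := congrFun h τ
    rw [divD_apply, Pi.zero_apply, div_eq_zero_iff,
      or_iff_left (pow_ne_zero _ (discriminant_ne_zero τ))] at h1
    exact h1
  obtain ⟨g, hg, hgm⟩ := exists_pow_eq hm (divD hf'.1 (n * m)).2 hh0 hord
  -- the root
  set G₀ : ℍ → ℂ := g * Δ ^ n with hG₀
  have hG₀d : MDiff G₀ := hg.mul (mdiff_discriminant.pow n)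
  have hG₀m : G₀ ^ m = f' := by
    ext τ
    rw [hG₀, Pi.pow_apply, Pi.mul_apply, Pi.pow_apply, mul_pow, hgm, divD_apply, ← pow_mul,
      div_mul_cancel₀ _ (pow_ne_zero _ (discriminant_ne_zero τ))]
  have hG₀0 : G₀ ≠ 0 := by
    rintro h
    rw [h, zero_pow hm.ne'] at hG₀m
    exact hf'0 hG₀m.symm
  have hslash : ∀ γ : SL(2, ℤ), (G₀ ∣[(12 * n : ℤ)] γ) ^ m =
      f' ∣[(12 * (n * m : ℕ) : ℤ)] γ := by
    intro γ
    rw [← hG₀m, ← slash_pow_SL2]
    congr 1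
    push_cast
    ring
  have hmult : ∀ γ : G, ∃ ζ : ℂ, ζ ^ m = 1 ∧ G₀ ∣[(12 * n : ℤ)] (γ : SL(2, ℤ)) = ζ • G₀ := by
    intro γ
    have h1 : (⟨_, hG₀d.slash (12 * n) (Matrix.SpecialLinearGroup.mapGL ℝ (γ : SL(2, ℤ)))⟩ :
        HolRing) ^ m = (⟨G₀, hG₀d⟩ : HolRing) ^ m := by
      apply Subtype.ext
      change (G₀ ∣[(12 * n : ℤ)] (γ : SL(2, ℤ))) ^ m = G₀ ^ m
      rw [hslash, hG₀m, hf'.2.1 γ]
      simp
    obtain ⟨ζ, h2, h3⟩ := exists_root_mul hm h1
    exact ⟨ζ, h2, congrArg Subtype.val h3⟩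
  obtain ⟨χ', hχ'⟩ := exists_char hG₀0 fun γ => ⟨_, (hmult γ).choose_spec.2⟩
  have hχ'm : χ' ^ m = 1 := by
    ext γ
    have h1 : (G₀ ∣[(12 * n : ℤ)] (γ : SL(2, ℤ))) ^ m = G₀ ^ m := by
      rw [hslash, hG₀m, hf'.2.1 γ]
      simp
    rw [hχ', smul_pow] at h1
    obtain ⟨τ, hτ⟩ := Function.ne_iff.mp hG₀0
    have h2 := congrFun h1 τ
    rw [Pi.smul_apply, smul_eq_mul, Pi.pow_apply] at h2
    have h3 := mul_right_cancel₀ (b := G₀ τ ^ m) (pow_ne_zero m hτ) (h2.trans (one_mul _).symm)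
    rw [MonoidHom.pow_apply, MonoidHom.one_apply, Units.val_pow_eq_pow_val, Units.val_one]
    exact h3
  -- periodicity and expansion
  have hbdd : ∀ A : SL(2, ℤ), IsBoundedAtImInfty (G₀ ∣[(12 * n : ℤ)] A) := fun A =>
    bounded_of_pow hm (by rw [hslash]; exact hf'.2.2 A)
  obtain ⟨ζ, hζm, hζ⟩ := hmult ⟨_, hT⟩
  have hT1 : ∀ τ : ℍ, G₀ ((1 : ℝ) +ᵥ τ) = ζ * G₀ τ := by
    intro τ
    rw [← modular_T_smul]
    have h3 : (G₀ ∣[(12 * n : ℤ)] ModularGroup.T) τ = G₀ (ModularGroup.T • τ) *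
      denom ModularGroup.T τ ^ (-(12 * n : ℤ)) := ModularForm.SL_slash_apply _ _ _
    have h4 : denom ModularGroup.T (τ : ℂ) = 1 := by
      rw [ModularGroup.denom_apply]
      simp [ModularGroup.coe_T]
    rw [h4, _root_.one_zpow, mul_one] at h3
    rw [← h3]
    exact congrFun hζ τ
  have hper : Function.Periodic (G₀ ∘ ofComplex) ((m : ℝ) : ℂ) := by
    intro z
    by_cases! hz : 0 < z.im
    · have hz' : 0 < (z + ((m : ℝ) : ℂ)).im := by simpa using hz
      have key : ∀ j : ℕ, G₀ (((j : ℕ) : ℝ) +ᵥ (⟨z, hz⟩ : ℍ)) = ζ ^ j * G₀ ⟨z, hz⟩ := by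
        intro j
        induction j with
        | zero => simp
        | succ j ih =>
          have h5 : (((j + 1 : ℕ) : ℝ) +ᵥ (⟨z, hz⟩ : ℍ)) =
              (1 : ℝ) +ᵥ (((j : ℕ) : ℝ) +ᵥ (⟨z, hz⟩ : ℍ)) := by
            rw [vadd_vadd]
            congr 1
            push_cast
            ring
          rw [h5, hT1, ih, pow_succ']
          ring
      rw [Function.comp_apply, Function.comp_apply, ofComplex_apply_of_im_pos hz,
        ofComplex_apply_of_im_pos hz']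
      have h6 := key m
      rw [hζm, one_mul] at h6
      rw [← h6]
      congr 1
      apply UpperHalfPlane.ext
      simp [add_comm]
    · have hz' : (z + ((m : ℝ) : ℂ)).im ≤ 0 := by simpa using hz
      rw [Function.comp_apply, Function.comp_apply, ofComplex_apply_of_im_nonpos hz,
        ofComplex_apply_of_im_nonpos hz']
  have hm' : (0 : ℝ) < m := by exact_mod_cast hm
  have hG₀Q : HasQ m G₀ (qExpansion m G₀) :=
    HasQ.of_periodic hm' hper hG₀d (by simpa using hbdd 1)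
  have hf'Qm : HasQ m f' ((R ^ m).expand m hm.ne') := by
    have := hR.change_width m hm.ne'
    rwa [mul_one] at this
  have hpow : (qExpansion m G₀) ^ m = (R.expand m hm.ne') ^ m := by
    have h1 := hG₀Q.pow m
    rw [hG₀m] at h1
    rw [h1.unique hm' hf'Qm, map_pow]
  obtain ⟨ξ, hξm, hξ⟩ := exists_root_mul hm hpow
  have hξ0 : ξ ≠ 0 := by
    rintro rfl
    rw [zero_pow hm.ne'] at hξm
    exact zero_ne_one hξm
  have hF'Q : HasQ 1 (ξ⁻¹ • G₀) R := by
    refine HasQ_of_expand hm.ne' ?_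
    have h1 := hG₀Q.smul ξ⁻¹
    rw [hξ, smul_smul, inv_mul_cancel₀ hξ0, one_smul] at h1
    exact h1
  have hF'0 : ξ⁻¹ • G₀ ≠ 0 := smul_ne_zero (inv_ne_zero hξ0) hG₀0
  have hF'mem : ξ⁻¹ • G₀ ∈ mform χ' (12 * n) :=
    Submodule.smul_mem _ _ ⟨hG₀d, hχ', hbdd⟩
  refine ⟨χ', ⟨hχ'm, fun γ hγ => ?_⟩, ξ⁻¹ • G₀, hF'mem, hF'0, ?_, hF'Q⟩
  · have h1 := hF'mem.2.1 γ
    rw [slash_of_c_zero (even_weight n) (hF'Q.periodic one_pos) _ hγ] at h1
    obtain ⟨τ, hτ⟩ := Function.ne_iff.mp hF'0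
    have h2 := congrFun h1 τ
    rw [Pi.smul_apply (χ' γ : ℂ), smul_eq_mul] at h2
    have h3 := mul_right_cancel₀ hτ ((one_mul _).trans h2)
    exact Units.ext h3.symm
  · rw [smul_pow, inv_pow, hξm, inv_one, one_smul, hG₀m]

/-- A power series over an algebraically closed field of characteristic zero whose order is a
multiple of `m` is an `m`-th power. -/
theorem exists_pow_eq_of_order {P : PowerSeries ℂ} {m k : ℕ} (hm : 0 < m)
    (hP : P.order = ((m * k : ℕ) : ℕ∞)) : ∃ R : PowerSeries ℂ, R ^ m = P := by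
  have hP0 : P ≠ 0 := by
    rintro rfl
    rw [PowerSeries.order_zero] at hP
    exact absurd hP.symm (ENat.natCast_ne_top _)
  obtain ⟨u, hu⟩ := PowerSeries.X_pow_order_dvd (φ := P)
  have h1 : P.order.toNat = m * k := by rw [hP]; rfl
  rw [h1] at hu
  have hu0 : PowerSeries.constantCoeff u ≠ 0 := by
    intro h0
    have h2 : PowerSeries.coeff (m * k) P = 0 := by
      rw [hu, PowerSeries.coeff_X_pow_mul', if_pos le_rfl, Nat.sub_self,
        PowerSeries.coeff_zero_eq_constantCoeff, h0]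
    have h3 := PowerSeries.order_eq_nat.mp hP
    exact h3.1 h2
  obtain ⟨v, hv, -⟩ := exists_pow_eq_series u hu0 hm
  exact ⟨PowerSeries.X ^ k * v, by rw [mul_pow, hv, ← pow_mul, mul_comm k m, ← hu]⟩

end Fermat.Agent.JTors
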